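import Fermat.Agent.H86.SS2.Emb3Defs

/-!
# P-SS2, row 1037 (SS2-C1-EXT): Chevalley extension with a prescribed non-unit

`extExists : Fermat.Agent.H86.SS2.ExtExistsStatement`.

Proof: `R = φ(V)[Z]` is the image of the evaluation `ev : V[T] → E₂`; the kernel of `ev` is
contained in `𝔫 = (𝔪_V, T)` (division by the monic lift of `P`, the remainder vanishes by the
independence of `1, …, Z^(n-1)`, and `P(0) ∈ 𝔪_V`), hence the image `I` of `𝔫` in `R` is a proper
ideal; Mathlib's `Ideal.image_subset_nonunits_valuationSubring` gives a valuation ring `V'`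
containing `R` in which the elements of `I` are non-units; `V' ∩ E₁ = V` because a valuation
ring is maximal for domination.
-/

set_option autoImplicit false

noncomputable section

namespace Fermat.Agent.H17.SS2

open Polynomial

section

variable {E₁ E₂ : Type} [Field E₁] [Field E₂] (φ : E₁ →+* E₂) (V : ValuationSubring E₁)
  (Z : E₂)

/-- Evaluation `V[T] → E₂`, `T ↦ Z`. -/
def extEv : Polynomial ↥V →+* E₂ := Polynomial.eval₂RingHom (φ.comp V.subtype) Z

theorem extEv_apply (f : Polynomial ↥V) : extEv φ V Z f = eval₂ (φ.comp V.subtype) Z f := rfl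

theorem extEv_X : extEv φ V Z X = Z := by
  rw [extEv_apply, eval₂_X]

theorem extEv_C (a : ↥V) : extEv φ V Z (C a) = φ (a : E₁) := by
  rw [extEv_apply, eval₂_C]
  rfl

/-- The ideal `(𝔪_V, T)` of `V[T]`. -/
def extN : Ideal (Polynomial ↥V) :=
  Ideal.comap (Polynomial.constantCoeff : Polynomial ↥V →+* ↥V) (IsLocalRing.maximalIdeal ↥V)

theorem mem_extN (f : Polynomial ↥V) : f ∈ extN V ↔ f.coeff 0 ∈ IsLocalRing.maximalIdeal ↥V :=
  Iff.rfl

theorem one_notMem_extN : (1 : Polynomial ↥V) ∉ extN V := by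
  rw [mem_extN, coeff_one_zero]
  exact fun h => (IsLocalRing.maximalIdeal.isMaximal ↥V).ne_top
    ((Ideal.eq_top_iff_one _).mpr h)

theorem X_mem_extN : (X : Polynomial ↥V) ∈ extN V := by
  rw [mem_extN, coeff_X_zero]
  exact Ideal.zero_mem _

theorem C_mem_extN {a : ↥V} (ha : a ∈ IsLocalRing.maximalIdeal ↥V) :
    (C a : Polynomial ↥V) ∈ extN V := by
  rw [mem_extN, coeff_C_zero]
  exact ha

variable {φ V Z}

/-- The kernel of the evaluation is contained in `(𝔪_V, T)`. -/
theorem ker_extEv_le {n : ℕ} {P : Polynomial E₁} (hP : P.Monic) (hn : P.natDegree = n)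
    (hV : ∀ i, P.coeff i ∈ V) (h0 : P.coeff 0 ∈ V.nonunits) (hZ : (P.map φ).eval Z = 0)
    (hind : ∀ c : Fin n → E₁, ∑ i, φ (c i) * Z ^ (i : ℕ) = 0 → ∀ i, c i = 0)
    (g : Polynomial ↥V) (hg : extEv φ V Z g = 0) : g ∈ extN V := by
  -- lift `P` to `V[T]`
  have hlift : P ∈ Polynomial.lifts V.subtype := by
    rw [Polynomial.lifts_iff_coeff_lifts]
    intro i
    exact ⟨⟨P.coeff i, hV i⟩, rfl⟩
  obtain ⟨PV, hPV, hdeg, hmonic⟩ := Polynomial.lifts_and_natDegree_eq_and_monic hlift hP
  have hevP : extEv φ V Z PV = 0 := by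
    rw [extEv_apply, ← Polynomial.eval₂_map, hPV, ← Polynomial.eval_map]
    exact hZ
  have hPV0 : PV.coeff 0 ∈ IsLocalRing.maximalIdeal ↥V := by
    obtain ⟨ha, hmem⟩ := ValuationSubring.mem_nonunits_iff_exists_mem_maximalIdeal.mp h0
    have e : PV.coeff 0 = ⟨P.coeff 0, ha⟩ := by
      apply Subtype.ext
      show V.subtype (PV.coeff 0) = P.coeff 0
      rw [← Polynomial.coeff_map, hPV]
    rw [e]
    exact hmem
  -- division with remainder
  set r := g %ₘ PV with hr
  have hdiv : r + PV * (g /ₘ PV) = g := Polynomial.modByMonic_add_div g PV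
  have hevr : extEv φ V Z r = 0 := by
    have := congrArg (extEv φ V Z) hdiv
    rw [map_add, map_mul, hevP, zero_mul, add_zero, hg] at this
    exact this
  have hr0 : r = 0 := by
    by_contra hne
    have hdlt : r.degree < PV.degree := Polynomial.degree_modByMonic_lt g hmonic
    have hnat : r.natDegree < n := by
      rw [← hn, ← hdeg]
      exact Polynomial.natDegree_lt_natDegree hne hdlt
    have hsum : extEv φ V Z r = ∑ i : Fin n, φ ((r.coeff i : ↥V) : E₁) * Z ^ (i : ℕ) := by
      rw [extEv_apply, Polynomial.eval₂_eq_sum_range' _ hnat, Finset.sum_range]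
      rfl
    rw [hsum] at hevr
    have hc := hind (fun i => ((r.coeff i : ↥V) : E₁)) hevr
    apply hne
    apply Polynomial.ext
    intro i
    rw [Polynomial.coeff_zero]
    by_cases hi : i < n
    · have := hc ⟨i, hi⟩
      exact Subtype.ext this
    · exact Polynomial.coeff_eq_zero_of_natDegree_lt (lt_of_lt_of_le hnat (not_lt.mp hi))
  rw [hr0, zero_add] at hdiv
  rw [← hdiv, mem_extN, Polynomial.mul_coeff_zero]
  exact Ideal.mul_mem_right _ _ hPV0

end

/-- **Sub-row EXT (Chevalley)**. -/
theorem extExists : Fermat.Agent.H86.SS2.ExtExistsStatement := by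
  intro E₁ E₂ _ _ φ V Z n P hP hn hV h0 hZ hind
  set ev := extEv φ V Z with hev
  set R : Subring E₂ := ev.range with hR
  set I : Ideal R := Ideal.map ev.rangeRestrict (extN V) with hIdef
  have hsurj : Function.Surjective ev.rangeRestrict := ev.rangeRestrict_surjective
  have hI : I ≠ ⊤ := by
    intro htop
    have h1 : (1 : R) ∈ I := by rw [htop]; trivial
    obtain ⟨f, hf, hf1⟩ := (Ideal.mem_map_iff_of_surjective ev.rangeRestrict hsurj).mp h1
    have hf1' : ev f = 1 := congrArg Subtype.val hf1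
    have hker : ev (f - 1) = 0 := by rw [map_sub, hf1', map_one, sub_self]
    have h2 := ker_extEv_le hP hn hV h0 hZ hind (f - 1) hker
    have h1N : (1 : Polynomial ↥V) ∈ extN V := by
      have h3 := (extN V).sub_mem hf h2
      simpa using h3
    exact one_notMem_extN V h1N
  obtain ⟨B, hRB, hIB⟩ := Ideal.image_subset_nonunits_valuationSubring I hI
  have hmemI : ∀ f ∈ extN V, ev f ∈ B.nonunits := by
    intro f hf
    apply hIB
    exact ⟨ev.rangeRestrict f, Ideal.mem_map_of_mem _ hf, rfl⟩
  refine ⟨B, ?_, ?_⟩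
  · ext x
    rw [ValuationSubring.mem_comap]
    constructor
    · intro hx
      by_contra hxV
      have hinv : x⁻¹ ∈ V.nonunits := by
        rw [ValuationSubring.mem_nonunits_iff_or]
        right
        rwa [inv_inv]
      obtain ⟨ha, hmem⟩ := ValuationSubring.mem_nonunits_iff_exists_mem_maximalIdeal.mp hinv
      have hnon : φ x⁻¹ ∈ B.nonunits := by
        have h4 := hmemI _ (C_mem_extN V hmem)
        rw [hev, extEv_C] at h4
        exact h4
      have hx0 : x ≠ 0 := fun h => hxV (h ▸ V.zero_mem)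
      have h5 : B.valuation (φ x⁻¹) < 1 := (ValuationSubring.mem_nonunits_iff B).mp hnon
      have h6 : B.valuation (φ x) ≤ 1 := (B.valuation_le_one_iff _).mpr hx
      have h7 : B.valuation (φ x * φ x⁻¹) < 1 := by
        rw [map_mul]
        calc B.valuation (φ x) * B.valuation (φ x⁻¹)
            ≤ 1 * B.valuation (φ x⁻¹) := mul_le_mul_left h6 _
          _ = B.valuation (φ x⁻¹) := one_mul _
          _ < 1 := h5
      rw [← map_mul, mul_inv_cancel₀ hx0, map_one, map_one] at h7
      exact lt_irrefl _ h7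
    · intro hx
      apply hRB
      exact ⟨C ⟨x, hx⟩, extEv_C φ V Z _⟩
  · have h8 := hmemI _ (X_mem_extN V)
    rw [hev, extEv_X] at h8
    exact h8

end Fermat.Agent.H17.SS2
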